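import Fermat.Agent.S52.H93.Lite.Line
import Fermat.Agent.S52.H3.FamilyIface

/-!
# S52 / E0, light version: the Klein family instance

`isKleinFamily : H3.IsKleinFamily liteRh liteSh liteDh` with `liteRh = kRh`, `liteSh = kSh`,
`liteDh = kDh` — the same family as `H93.isKleinFamily` (`H93/KleinFamily.lean`), but its import
closure contains none of the coefficientwise files `KleinLineH`, `KleinLineT1`-`T3`: the line
identities for `H` and `T` are obtained from the one for `f` in the universal ring
`ℤ[x, y, n, m]` (`Lite/Line.lean`) and transported by evaluation.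
-/

set_option autoImplicit false

namespace Fermat.Agent.S52.H93.Lite

open MvPolynomial

section Universal

theorem univ_ne_zero : (17424 : MvPolynomial (Fin 4) ℤ) * kf (X 0) (X 1) ^ 2 ≠ 0 := by
  intro h
  have h' := congrArg (MvPolynomial.eval (fun _ : Fin 4 => (1 : ℤ))) h
  simp only [kf, map_mul, map_pow, map_add, map_sub, map_ofNat, eval_X, map_zero] at h'
  norm_num at h'

theorem univ_ne_zero' : (240 : MvPolynomial (Fin 4) ℤ) * kf (X 0) (X 1) ≠ 0 := by
  intro h
  have h' := congrArg (MvPolynomial.eval (fun _ : Fin 4 => (1 : ℤ))) h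
  simp only [kf, map_mul, map_pow, map_add, map_sub, map_ofNat, eval_X, map_zero] at h'
  norm_num at h'

/-- The line identity for `H` in the universal ring `ℤ[x, y, n, m]`. -/
theorem kH_line_univ :
    kH ((X 2 : MvPolynomial (Fin 4) ℤ) * X 0 + X 3 * kwx (X 0) (X 1))
        (X 2 * X 1 + X 3 * kwy (X 0) (X 1))
      = kRh (kH (X 0) (X 1)) (kT (X 0) (X 1)) (X 2) (X 3) :=
  kH_line_of_derivations (pderiv 2) (pderiv 3) (X 0) (X 1) (X 2) (X 3)
    (pderiv_X_of_ne (by decide)) (pderiv_X_of_ne (by decide)) (pderiv_X_self 2)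
    (pderiv_X_of_ne (by decide))
    (pderiv_X_of_ne (by decide)) (pderiv_X_of_ne (by decide)) (pderiv_X_of_ne (by decide))
    (pderiv_X_self 3) univ_ne_zero

/-- The line identity for `T` in the universal ring `ℤ[x, y, n, m]`. -/
theorem kT_line_univ :
    kT ((X 2 : MvPolynomial (Fin 4) ℤ) * X 0 + X 3 * kwx (X 0) (X 1))
        (X 2 * X 1 + X 3 * kwy (X 0) (X 1))
      = kSh (kH (X 0) (X 1)) (kT (X 0) (X 1)) (X 2) (X 3) :=
  kT_line_of_derivations (pderiv 2) (pderiv 3) (X 0) (X 1) (X 2) (X 3)
    (pderiv_X_of_ne (by decide)) (pderiv_X_of_ne (by decide)) (pderiv_X_self 2)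
    (pderiv_X_of_ne (by decide))
    (pderiv_X_of_ne (by decide)) (pderiv_X_of_ne (by decide)) (pderiv_X_of_ne (by decide))
    (pderiv_X_self 3) univ_ne_zero univ_ne_zero'

end Universal

section Map

variable {R S : Type*} [CommRing R] [CommRing S] (φ : R →+* S)

theorem map_kH (a b : R) : φ (kH a b) = kH (φ a) (φ b) := by
  simp only [kH, map_add, map_sub, map_mul, map_pow, map_neg, map_ofNat]

theorem map_kT (a b : R) : φ (kT a b) = kT (φ a) (φ b) := by
  simp only [kT, map_add, map_sub, map_mul, map_pow, map_neg, map_ofNat]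

theorem map_kwx (a b : R) : φ (kwx a b) = kwx (φ a) (φ b) := by
  simp only [kwx, map_add, map_sub, map_mul, map_pow, map_neg, map_ofNat]

theorem map_kwy (a b : R) : φ (kwy a b) = kwy (φ a) (φ b) := by
  simp only [kwy, map_add, map_sub, map_mul, map_pow, map_neg, map_ofNat]

theorem map_kRh (a b n m : R) : φ (kRh a b n m) = kRh (φ a) (φ b) (φ n) (φ m) := by
  simp only [kRh, map_add, map_sub, map_mul, map_pow, map_neg, map_ofNat, map_one]

theorem map_kSh (a b n m : R) : φ (kSh a b n m) = kSh (φ a) (φ b) (φ n) (φ m) := by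
  simp only [kSh, map_add, map_sub, map_mul, map_pow, map_neg, map_ofNat, map_one]

theorem map_kDh (a b n m : R) : φ (kDh a b n m) = kDh (φ a) (φ b) (φ n) (φ m) := by
  simp only [kDh, map_add, map_sub, map_mul, map_pow, map_neg, map_ofNat, map_one, map_zero]

end Map

section Point

variable {R : Type*}

/-- The point `(x, y, n, m)` at which the universal identities are evaluated. -/
def pt (x y n m : R) : Fin 4 → R := ![x, y, n, m]

theorem pt_zero (x y n m : R) : pt x y n m 0 = x := rfl

theorem pt_one (x y n m : R) : pt x y n m 1 = y := rfl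

theorem pt_two (x y n m : R) : pt x y n m 2 = n := rfl

theorem pt_three (x y n m : R) : pt x y n m 3 = m := rfl

end Point

section Line

variable {R : Type*} [CommRing R]

/-- The line identity for `H` (light proof). -/
theorem kH_line_lite (x y n m : R) :
    kH (n * x + m * kwx x y) (n * y + m * kwy x y) = kRh (kH x y) (kT x y) n m := by
  have h := congrArg (MvPolynomial.eval₂Hom (Int.castRingHom R) (pt x y n m)) kH_line_univ
  simp only [map_kH, map_kT, map_kwx, map_kwy, map_kRh, map_add, map_mul, eval₂Hom_X',
    pt_zero, pt_one, pt_two, pt_three] at h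
  exact h

/-- The line identity for `T` (light proof). -/
theorem kT_line_lite (x y n m : R) :
    kT (n * x + m * kwx x y) (n * y + m * kwy x y) = kSh (kH x y) (kT x y) n m := by
  have h := congrArg (MvPolynomial.eval₂Hom (Int.castRingHom R) (pt x y n m)) kT_line_univ
  simp only [map_kH, map_kT, map_kwx, map_kwy, map_kSh, map_add, map_mul, eval₂Hom_X',
    pt_zero, pt_one, pt_two, pt_three] at h
  exact h

theorem kRh_zero (a b n : R) : kRh a b n 0 = a * n ^ 20 := by
  simp only [kRh]; ring

theorem kSh_zero (a b n : R) : kSh a b n 0 = b * n ^ 30 := by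
  simp only [kSh]; ring

theorem kDh_zero (a b n : R) : kDh a b n 0 = n ^ 12 := by
  simp only [kDh]; ring

end Line

/-- `kRh` as an operation on every commutative ring (`Type`-valued, as in `H3.IsKleinFamily`). -/
def liteRh : ∀ (R : Type) [CommRing R], R → R → R → R → R := fun _ _ => kRh

/-- `kSh` as an operation on every commutative ring. -/
def liteSh : ∀ (R : Type) [CommRing R], R → R → R → R → R := fun _ _ => kSh

/-- `kDh` as an operation on every commutative ring. -/
def liteDh : ∀ (R : Type) [CommRing R], R → R → R → R → R := fun _ _ => kDh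

/-- The Klein family `(kRh, kSh, kDh)` satisfies the interface of `H3/FamilyIface.lean`
(light import closure). -/
theorem isKleinFamily : H3.IsKleinFamily liteRh liteSh liteDh where
  map_Rh φ a b n m := map_kRh φ a b n m
  map_Sh φ a b n m := map_kSh φ a b n m
  map_Dh φ a b n m := map_kDh φ a b n m
  Rh_zero a b n := kRh_zero a b n
  Sh_zero a b n := kSh_zero a b n
  Dh_zero a b n := kDh_zero a b n
  lineH x y n m := kH_line_lite x y n m
  lineT x y n m := kT_line_lite x y n m
  lineF x y n m := kf_line x y n m

end Fermat.Agent.S52.H93.Lite
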