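import Fermat.Agent.S52.H93.KleinLineF

/-!
# S52 / E0, light version: partial derivatives of the Klein forms and of the family forms

Formal partial derivatives (as polynomial functions) of `kf`, `kH` in `(X, Y)` and of `kDh`, `kRh`
in `(n, m)`, the chain rule for an arbitrary derivation, and the four covariance identities

* `fXX * fYY - fXY ^ 2 = 121 * kH`        (Hessian of `f`),
* `fX * hY - fY * hX = 20 * kT`           (Jacobian of `f`, `H`),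
* `dNN * dMM - dNM ^ 2 = 17424 * kRh`     (Hessian of `kDh` in `(n, m)`),
* `dN * rM - dM * rN = -240 * kSh`        (Jacobian of `kDh`, `kRh` in `(n, m)`).

They are used in `Lite/Line.lean` to deduce the line identities for `H` and `T` from the one
for `f` (`kf_line`) without any large polynomial expansion.
-/

set_option autoImplicit false

namespace Fermat.Agent.S52.H93.Lite

section Defs

variable {R : Type*} [CommRing R]

/-- `∂f/∂X`. -/
def fX (X Y : R) : R := 11 * X ^ 10 * Y + 66 * X ^ 5 * Y ^ 6 - Y ^ 11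

/-- `∂f/∂Y`. -/
def fY (X Y : R) : R := X ^ 11 + 66 * X ^ 6 * Y ^ 5 - 11 * X * Y ^ 10

/-- `∂²f/∂X²`. -/
def fXX (X Y : R) : R := 110 * X ^ 9 * Y + 330 * X ^ 4 * Y ^ 6

/-- `∂²f/∂X∂Y`. -/
def fXY (X Y : R) : R := 11 * X ^ 10 + 396 * X ^ 5 * Y ^ 5 - 11 * Y ^ 10

/-- `∂²f/∂Y²`. -/
def fYY (X Y : R) : R := 330 * X ^ 6 * Y ^ 4 - 110 * X * Y ^ 9

/-- `∂H/∂X`. -/
def hX (X Y : R) : R :=
  -(20 * X ^ 19) + 3420 * X ^ 14 * Y ^ 5 - 1140 * X ^ 4 * Y ^ 15 - 4940 * X ^ 9 * Y ^ 10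

/-- `∂H/∂Y`. -/
def hY (X Y : R) : R :=
  -(20 * Y ^ 19) + 1140 * X ^ 15 * Y ^ 4 - 3420 * X ^ 5 * Y ^ 14 - 4940 * X ^ 10 * Y ^ 9

/-- `∂/∂n` of `kDh` (formal partial derivative, as a polynomial function). -/
def dN (A B n m : R) : R :=
    (12) * n ^ 11
    + (660 * A) * n ^ 9 * m ^ 2
    + (-3960 * B) * n ^ 8 * m ^ 3
    + (-11880 * A ^ 2) * n ^ 7 * m ^ 4
    + (22176 * A * B) * n ^ 6 * m ^ 5
    + (-63360 * B ^ 2 - 35640 * A ^ 3) * n ^ 5 * m ^ 6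
    + (-23760 * A ^ 2 * B) * n ^ 4 * m ^ 7
    + (-253440 * A * B ^ 2 - 267300 * A ^ 4) * n ^ 3 * m ^ 8
    + (422400 * B ^ 3 + 427680 * A ^ 3 * B) * n ^ 2 * m ^ 9
    + (266112 * A ^ 2 * B ^ 2 + 267300 * A ^ 5) * n * m ^ 10
    + (-61440 * A * B ^ 3 - 61560 * A ^ 4 * B) * m ^ 11

/-- `∂/∂m` of `kDh` (formal partial derivative, as a polynomial function). -/
def dM (A B n m : R) : R :=
    (132 * A) * n ^ 10 * m
    + (-1320 * B) * n ^ 9 * m ^ 2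
    + (-5940 * A ^ 2) * n ^ 8 * m ^ 3
    + (15840 * A * B) * n ^ 7 * m ^ 4
    + (-63360 * B ^ 2 - 35640 * A ^ 3) * n ^ 6 * m ^ 5
    + (-33264 * A ^ 2 * B) * n ^ 5 * m ^ 6
    + (-506880 * A * B ^ 2 - 534600 * A ^ 4) * n ^ 4 * m ^ 7
    + (1267200 * B ^ 3 + 1283040 * A ^ 3 * B) * n ^ 3 * m ^ 8
    + (1330560 * A ^ 2 * B ^ 2 + 1336500 * A ^ 5) * n ^ 2 * m ^ 9
    + (-675840 * A * B ^ 3 - 677160 * A ^ 4 * B) * n * m ^ 10
    + (1228800 * B ^ 4 + 2322432 * A ^ 3 * B ^ 2 + 1093500 * A ^ 6) * m ^ 11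

/-- `∂²/∂n²` of `kDh` (formal partial derivative, as a polynomial function). -/
def dNN (A B n m : R) : R :=
    (132) * n ^ 10
    + (5940 * A) * n ^ 8 * m ^ 2
    + (-31680 * B) * n ^ 7 * m ^ 3
    + (-83160 * A ^ 2) * n ^ 6 * m ^ 4
    + (133056 * A * B) * n ^ 5 * m ^ 5
    + (-316800 * B ^ 2 - 178200 * A ^ 3) * n ^ 4 * m ^ 6
    + (-95040 * A ^ 2 * B) * n ^ 3 * m ^ 7
    + (-760320 * A * B ^ 2 - 801900 * A ^ 4) * n ^ 2 * m ^ 8
    + (844800 * B ^ 3 + 855360 * A ^ 3 * B) * n * m ^ 9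
    + (266112 * A ^ 2 * B ^ 2 + 267300 * A ^ 5) * m ^ 10

/-- `∂²/∂n∂m` of `kDh` (formal partial derivative, as a polynomial function). -/
def dNM (A B n m : R) : R :=
    (1320 * A) * n ^ 9 * m
    + (-11880 * B) * n ^ 8 * m ^ 2
    + (-47520 * A ^ 2) * n ^ 7 * m ^ 3
    + (110880 * A * B) * n ^ 6 * m ^ 4
    + (-380160 * B ^ 2 - 213840 * A ^ 3) * n ^ 5 * m ^ 5
    + (-166320 * A ^ 2 * B) * n ^ 4 * m ^ 6
    + (-2027520 * A * B ^ 2 - 2138400 * A ^ 4) * n ^ 3 * m ^ 7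
    + (3801600 * B ^ 3 + 3849120 * A ^ 3 * B) * n ^ 2 * m ^ 8
    + (2661120 * A ^ 2 * B ^ 2 + 2673000 * A ^ 5) * n * m ^ 9
    + (-675840 * A * B ^ 3 - 677160 * A ^ 4 * B) * m ^ 10

/-- `∂²/∂m²` of `kDh` (formal partial derivative, as a polynomial function). -/
def dMM (A B n m : R) : R :=
    (132 * A) * n ^ 10
    + (-2640 * B) * n ^ 9 * m
    + (-17820 * A ^ 2) * n ^ 8 * m ^ 2
    + (63360 * A * B) * n ^ 7 * m ^ 3
    + (-316800 * B ^ 2 - 178200 * A ^ 3) * n ^ 6 * m ^ 4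
    + (-199584 * A ^ 2 * B) * n ^ 5 * m ^ 5
    + (-3548160 * A * B ^ 2 - 3742200 * A ^ 4) * n ^ 4 * m ^ 6
    + (10137600 * B ^ 3 + 10264320 * A ^ 3 * B) * n ^ 3 * m ^ 7
    + (11975040 * A ^ 2 * B ^ 2 + 12028500 * A ^ 5) * n ^ 2 * m ^ 8
    + (-6758400 * A * B ^ 3 - 6771600 * A ^ 4 * B) * n * m ^ 9
    + (13516800 * B ^ 4 + 25546752 * A ^ 3 * B ^ 2 + 12028500 * A ^ 6) * m ^ 10

/-- `∂/∂n` of `kRh` (formal partial derivative, as a polynomial function). -/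
def rN (A B n m : R) : R :=
    (20 * A) * n ^ 19
    + (-380 * B) * n ^ 18 * m
    + (-3420 * A ^ 2) * n ^ 17 * m ^ 2
    + (19380 * A * B) * n ^ 16 * m ^ 3
    + (-91200 * B ^ 2 - 13680 * A ^ 3) * n ^ 15 * m ^ 4
    + (-232560 * A ^ 2 * B) * n ^ 14 * m ^ 5
    + (-893760 * A * B ^ 2 - 1436400 * A ^ 4) * n ^ 13 * m ^ 6
    + (2371200 * B ^ 3 + 3378960 * A ^ 3 * B) * n ^ 12 * m ^ 7
    + (-13515840 * A ^ 2 * B ^ 2 - 12004200 * A ^ 5) * n ^ 11 * m ^ 8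
    + (86944000 * A * B ^ 3 + 85096440 * A ^ 4 * B) * n ^ 10 * m ^ 9
    + (-158080000 * B ^ 4 - 56197440 * A ^ 3 * B ^ 2 + 100035000 * A ^ 6) * n ^ 9 * m ^ 10
    + (-493683840 * A ^ 2 * B ^ 3 - 492172200 * A ^ 5 * B) * n ^ 8 * m ^ 11
    + (303513600 * A * B ^ 4 - 57620160 * A ^ 4 * B ^ 2 - 360126000 * A ^ 7) * n ^ 7 * m ^ 12
    + (-408576000 * B ^ 5 - 162408960 * A ^ 3 * B ^ 3 + 245624400 * A ^ 6 * B) * n ^ 6 * m ^ 13
    + (-1724774400 * A ^ 2 * B ^ 4 - 2971131840 * A ^ 5 * B ^ 2 - 1246590000 * A ^ 8) * n ^ 5 * m ^ 14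
    + (2334720000 * A * B ^ 5 + 4412292480 * A ^ 4 * B ^ 3 + 2077650000 * A ^ 7 * B) * n ^ 4 * m ^ 15
    + (-2334720000 * B ^ 6 - 4881899520 * A ^ 3 * B ^ 4 - 2858846400 * A ^ 6 * B ^ 2 - 311647500 * A ^ 9) * n ^ 3 * m ^ 16
    + (-1085644800 * A ^ 2 * B ^ 5 - 2145242880 * A ^ 5 * B ^ 3 - 1059601500 * A ^ 8 * B) * n ^ 2 * m ^ 17
    + (-1245184000 * A * B ^ 6 - 4052782080 * A ^ 4 * B ^ 4 - 4365835200 * A ^ 7 * B ^ 2 - 1558237500 * A ^ 10) * n * m ^ 18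
    + (655360000 * B ^ 7 + 2005401600 * A ^ 3 * B ^ 5 + 2044414080 * A ^ 6 * B ^ 3 + 694372500 * A ^ 9 * B) * m ^ 19

/-- `∂/∂m` of `kRh` (formal partial derivative, as a polynomial function). -/
def rM (A B n m : R) : R :=
    (-20 * B) * n ^ 19
    + (-380 * A ^ 2) * n ^ 18 * m
    + (3420 * A * B) * n ^ 17 * m ^ 2
    + (-22800 * B ^ 2 - 3420 * A ^ 3) * n ^ 16 * m ^ 3
    + (-77520 * A ^ 2 * B) * n ^ 15 * m ^ 4
    + (-383040 * A * B ^ 2 - 615600 * A ^ 4) * n ^ 14 * m ^ 5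
    + (1276800 * B ^ 3 + 1819440 * A ^ 3 * B) * n ^ 13 * m ^ 6
    + (-9010560 * A ^ 2 * B ^ 2 - 8002800 * A ^ 5) * n ^ 12 * m ^ 7
    + (71136000 * A * B ^ 3 + 69624360 * A ^ 4 * B) * n ^ 11 * m ^ 8
    + (-158080000 * B ^ 4 - 56197440 * A ^ 3 * B ^ 2 + 100035000 * A ^ 6) * n ^ 10 * m ^ 9
    + (-603391360 * A ^ 2 * B ^ 3 - 601543800 * A ^ 5 * B) * n ^ 9 * m ^ 10
    + (455270400 * A * B ^ 4 - 86430240 * A ^ 4 * B ^ 2 - 540189000 * A ^ 7) * n ^ 8 * m ^ 11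
    + (-758784000 * B ^ 5 - 301616640 * A ^ 3 * B ^ 3 + 456159600 * A ^ 6 * B) * n ^ 7 * m ^ 12
    + (-4024473600 * A ^ 2 * B ^ 4 - 6932640960 * A ^ 5 * B ^ 2 - 2908710000 * A ^ 8) * n ^ 6 * m ^ 13
    + (7004160000 * A * B ^ 5 + 13236877440 * A ^ 4 * B ^ 3 + 6232950000 * A ^ 7 * B) * n ^ 5 * m ^ 14
    + (-9338880000 * B ^ 6 - 19527598080 * A ^ 3 * B ^ 4 - 11435385600 * A ^ 6 * B ^ 2 - 1246590000 * A ^ 9) * n ^ 4 * m ^ 15
    + (-6151987200 * A ^ 2 * B ^ 5 - 12156376320 * A ^ 5 * B ^ 3 - 6004408500 * A ^ 8 * B) * n ^ 3 * m ^ 16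
    + (-11206656000 * A * B ^ 6 - 36475038720 * A ^ 4 * B ^ 4 - 39292516800 * A ^ 7 * B ^ 2 - 14024137500 * A ^ 10) * n ^ 2 * m ^ 17
    + (12451840000 * B ^ 7 + 38102630400 * A ^ 3 * B ^ 5 + 38843867520 * A ^ 6 * B ^ 3 + 13193077500 * A ^ 9 * B) * n * m ^ 18
    + (3604480000 * A ^ 2 * B ^ 6 + 10899947520 * A ^ 5 * B ^ 4 + 10986030000 * A ^ 8 * B ^ 2 + 3690562500 * A ^ 11) * m ^ 19

theorem hess_f (X Y : R) : fXX X Y * fYY X Y - fXY X Y ^ 2 = 121 * kH X Y := by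
  simp only [fXX, fYY, fXY, kH]
  ring

theorem jac_f_H (X Y : R) : fX X Y * hY X Y - fY X Y * hX X Y = 20 * kT X Y := by
  simp only [fX, fY, hX, hY, kT]
  ring

theorem hess_kDh (A B n m : R) :
    dNN A B n m * dMM A B n m - dNM A B n m ^ 2 = 17424 * kRh A B n m := by
  simp only [dNN, dMM, dNM, kRh]
  ring

theorem jac_kDh_kRh (A B n m : R) :
    dN A B n m * rM A B n m - dM A B n m * rN A B n m = -240 * kSh A B n m := by
  simp only [dN, dM, rN, rM, kSh]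
  ring

end Defs

section Chain

variable {S : Type*} [CommRing S] (D : Derivation ℤ S S)

theorem D_ofNat (k : ℕ) [k.AtLeastTwo] : D (ofNat(k) : S) = 0 := by
  rw [← Nat.cast_ofNat (R := S)]
  exact D.map_natCast _

theorem D_kf (X Y : S) : D (kf X Y) = fX X Y * D X + fY X Y * D Y := by
  simp only [kf, fX, fY, Derivation.leibniz, Derivation.leibniz_pow, map_add, map_sub, D_ofNat,
    smul_eq_mul, nsmul_eq_mul, Nat.cast_ofNat, mul_zero, add_zero, Nat.add_one_sub_one]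
  ring

theorem D_fX (X Y : S) : D (fX X Y) = fXX X Y * D X + fXY X Y * D Y := by
  simp only [fX, fXX, fXY, Derivation.leibniz, Derivation.leibniz_pow, map_add, map_sub, D_ofNat,
    smul_eq_mul, nsmul_eq_mul, Nat.cast_ofNat, mul_zero, add_zero, Nat.add_one_sub_one]
  ring

theorem D_fY (X Y : S) : D (fY X Y) = fXY X Y * D X + fYY X Y * D Y := by
  simp only [fY, fXY, fYY, Derivation.leibniz, Derivation.leibniz_pow, map_add, map_sub, D_ofNat,
    smul_eq_mul, nsmul_eq_mul, Nat.cast_ofNat, mul_zero, add_zero, Nat.add_one_sub_one]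
  ring

theorem D_kH (X Y : S) : D (kH X Y) = hX X Y * D X + hY X Y * D Y := by
  simp only [kH, hX, hY, Derivation.leibniz, Derivation.leibniz_pow, map_add, map_sub, map_neg,
    D_ofNat, smul_eq_mul, nsmul_eq_mul, Nat.cast_ofNat, mul_zero, add_zero, Nat.add_one_sub_one]
  ring

theorem D_kDh (A B n m : S) (hA : D A = 0) (hB : D B = 0) :
    D (kDh A B n m) = dN A B n m * D n + dM A B n m * D m := by
  simp only [kDh, dN, dM, Derivation.leibniz, Derivation.leibniz_pow, map_add, map_sub, map_neg,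
    D_ofNat, Derivation.map_one_eq_zero, map_zero, hA, hB, smul_eq_mul, nsmul_eq_mul,
    Nat.cast_ofNat, mul_zero, add_zero, zero_add, smul_zero, Nat.add_one_sub_one]
  ring

theorem D_dN (A B n m : S) (hA : D A = 0) (hB : D B = 0) :
    D (dN A B n m) = dNN A B n m * D n + dNM A B n m * D m := by
  simp only [dN, dNN, dNM, Derivation.leibniz, Derivation.leibniz_pow, map_add, map_sub, map_neg,
    D_ofNat, Derivation.map_one_eq_zero, map_zero, hA, hB, smul_eq_mul, nsmul_eq_mul,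
    Nat.cast_ofNat, mul_zero, add_zero, zero_add, smul_zero, Nat.add_one_sub_one]
  ring

theorem D_dM (A B n m : S) (hA : D A = 0) (hB : D B = 0) :
    D (dM A B n m) = dNM A B n m * D n + dMM A B n m * D m := by
  simp only [dM, dNM, dMM, Derivation.leibniz, Derivation.leibniz_pow, map_add, map_sub, map_neg,
    D_ofNat, Derivation.map_one_eq_zero, map_zero, hA, hB, smul_eq_mul, nsmul_eq_mul,
    Nat.cast_ofNat, mul_zero, add_zero, zero_add, smul_zero, Nat.add_one_sub_one]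
  ring

theorem D_kRh (A B n m : S) (hA : D A = 0) (hB : D B = 0) :
    D (kRh A B n m) = rN A B n m * D n + rM A B n m * D m := by
  simp only [kRh, rN, rM, Derivation.leibniz, Derivation.leibniz_pow, map_add, map_sub, map_neg,
    D_ofNat, Derivation.map_one_eq_zero, map_zero, hA, hB, smul_eq_mul, nsmul_eq_mul,
    Nat.cast_ofNat, mul_zero, add_zero, zero_add, smul_zero, Nat.add_one_sub_one]
  ring

/-- A polynomial expression in `D`-constants is a `D`-constant. -/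
theorem D_kf_const (X Y : S) (hX : D X = 0) (hY : D Y = 0) : D (kf X Y) = 0 := by
  rw [D_kf, hX, hY]; ring

theorem D_kH_const (X Y : S) (hX : D X = 0) (hY : D Y = 0) : D (kH X Y) = 0 := by
  rw [D_kH, hX, hY]; ring

theorem D_kT_const (X Y : S) (hX : D X = 0) (hY : D Y = 0) : D (kT X Y) = 0 := by
  simp only [kT, Derivation.leibniz, Derivation.leibniz_pow, map_add, map_sub, map_neg,
    D_ofNat, hX, hY, smul_eq_mul, nsmul_eq_mul, mul_zero, add_zero, sub_zero, smul_zero]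

theorem D_kwx_const (X Y : S) (hX : D X = 0) (hY : D Y = 0) : D (kwx X Y) = 0 := by
  simp only [kwx, Derivation.leibniz, Derivation.leibniz_pow, map_add, map_sub, map_neg,
    D_ofNat, hX, hY, smul_eq_mul, nsmul_eq_mul, mul_zero, add_zero, sub_zero, smul_zero]

theorem D_kwy_const (X Y : S) (hX : D X = 0) (hY : D Y = 0) : D (kwy X Y) = 0 := by
  simp only [kwy, Derivation.leibniz, Derivation.leibniz_pow, map_add, map_sub, map_neg,
    D_ofNat, hX, hY, smul_eq_mul, nsmul_eq_mul, mul_zero, add_zero, sub_zero, smul_zero,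
    neg_zero]

end Chain

end Fermat.Agent.S52.H93.Lite
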