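import Fermat.Agent.S52.H93.Lite.Deriv

/-!
# S52 / E0, light version: the line identities for `H` and `T` from the one for `f`

`(n, m) ↦ n • v + m • w v` is a linear substitution of determinant `-12 f v`, `H` is the
(normalised) Hessian of `f` and `T` the (normalised) Jacobian of `f` and `H`.  Hence, from
`kf_line : f (n • v + m • w v) = f v * kDh (H v) (T v) n m`:

* `17424 * (f v) ^ 2 * H (n • v + m • w v) = (f v) ^ 2 * Hess_{n,m} (kDh)`, and
  `Hess_{n,m} (kDh) = 17424 * kRh`;
* `-240 * f v * T (n • v + m • w v) = f v * Jac_{n,m} (kDh, kRh)`, and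
  `Jac_{n,m} (kDh, kRh) = -240 * kSh`.

The derivatives are taken with the two partial derivations of `ℤ[x, y, n, m]`, a domain of
characteristic zero, where the factors `17424 * (f v) ^ 2` and `240 * f v` cancel; the identities
over an arbitrary commutative ring follow by evaluation.  No large polynomial expansion is needed
(compare `KleinLineH`, `KleinLineT1`-`T3`, which prove the same two identities coefficientwise).
-/

set_option autoImplicit false

namespace Fermat.Agent.S52.H93.Lite

section Abstract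

variable {S : Type*} [CommRing S] (Dn Dm : Derivation ℤ S S)

/-- First-order consequences of `kf_line` under two derivations behaving like `∂/∂n`, `∂/∂m`. -/
theorem first_order (x y n m : S)
    (hnx : Dn x = 0) (hny : Dn y = 0) (hnn : Dn n = 1) (hnm : Dn m = 0)
    (hmx : Dm x = 0) (hmy : Dm y = 0) (hmn : Dm n = 0) (hmm : Dm m = 1) :
    fX (n * x + m * kwx x y) (n * y + m * kwy x y) * x
        + fY (n * x + m * kwx x y) (n * y + m * kwy x y) * y
      = kf x y * dN (kH x y) (kT x y) n m ∧
    fX (n * x + m * kwx x y) (n * y + m * kwy x y) * kwx x y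
        + fY (n * x + m * kwx x y) (n * y + m * kwy x y) * kwy x y
      = kf x y * dM (kH x y) (kT x y) n m := by
  have hAn : Dn (kH x y) = 0 := D_kH_const Dn x y hnx hny
  have hBn : Dn (kT x y) = 0 := D_kT_const Dn x y hnx hny
  have hAm : Dm (kH x y) = 0 := D_kH_const Dm x y hmx hmy
  have hBm : Dm (kT x y) = 0 := D_kT_const Dm x y hmx hmy
  have hFn0 : Dn (kf x y) = 0 := D_kf_const Dn x y hnx hny
  have hFm0 : Dm (kf x y) = 0 := D_kf_const Dm x y hmx hmy
  have hw1n : Dn (kwx x y) = 0 := D_kwx_const Dn x y hnx hny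
  have hw2n : Dn (kwy x y) = 0 := D_kwy_const Dn x y hnx hny
  have hw1m : Dm (kwx x y) = 0 := D_kwx_const Dm x y hmx hmy
  have hw2m : Dm (kwy x y) = 0 := D_kwy_const Dm x y hmx hmy
  have hP1n : Dn (n * x + m * kwx x y) = x := by
    simp only [map_add, Derivation.leibniz, hnx, hnn, hnm, hw1n, smul_eq_mul, mul_zero, mul_one,
      zero_add, add_zero]
  have hP2n : Dn (n * y + m * kwy x y) = y := by
    simp only [map_add, Derivation.leibniz, hny, hnn, hnm, hw2n, smul_eq_mul, mul_zero, mul_one,
      zero_add, add_zero]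
  have hP1m : Dm (n * x + m * kwx x y) = kwx x y := by
    simp only [map_add, Derivation.leibniz, hmx, hmn, hmm, hw1m, smul_eq_mul, mul_zero, mul_one,
      zero_add, add_zero]
  have hP2m : Dm (n * y + m * kwy x y) = kwy x y := by
    simp only [map_add, Derivation.leibniz, hmy, hmn, hmm, hw2m, smul_eq_mul, mul_zero, mul_one,
      zero_add, add_zero]
  have hF := kf_line x y n m
  constructor
  · have h := congrArg Dn hF
    rw [D_kf, Derivation.leibniz, D_kDh Dn _ _ n m hAn hBn, hP1n, hP2n, hFn0, hnn, hnm] at h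
    simp only [smul_eq_mul] at h
    linear_combination h
  · have h := congrArg Dm hF
    rw [D_kf, Derivation.leibniz, D_kDh Dm _ _ n m hAm hBm, hP1m, hP2m, hFm0, hmn, hmm] at h
    simp only [smul_eq_mul] at h
    linear_combination h

/-- Second-order consequences of `kf_line`. -/
theorem second_order (x y n m : S)
    (hnx : Dn x = 0) (hny : Dn y = 0) (hnn : Dn n = 1) (hnm : Dn m = 0)
    (hmx : Dm x = 0) (hmy : Dm y = 0) (hmn : Dm n = 0) (hmm : Dm m = 1) :
    (fXX (n * x + m * kwx x y) (n * y + m * kwy x y) * x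
          + fXY (n * x + m * kwx x y) (n * y + m * kwy x y) * y) * x
        + (fXY (n * x + m * kwx x y) (n * y + m * kwy x y) * x
          + fYY (n * x + m * kwx x y) (n * y + m * kwy x y) * y) * y
      = kf x y * dNN (kH x y) (kT x y) n m ∧
    (fXX (n * x + m * kwx x y) (n * y + m * kwy x y) * kwx x y
          + fXY (n * x + m * kwx x y) (n * y + m * kwy x y) * kwy x y) * x
        + (fXY (n * x + m * kwx x y) (n * y + m * kwy x y) * kwx x y
          + fYY (n * x + m * kwx x y) (n * y + m * kwy x y) * kwy x y) * y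
      = kf x y * dNM (kH x y) (kT x y) n m ∧
    (fXX (n * x + m * kwx x y) (n * y + m * kwy x y) * kwx x y
          + fXY (n * x + m * kwx x y) (n * y + m * kwy x y) * kwy x y) * kwx x y
        + (fXY (n * x + m * kwx x y) (n * y + m * kwy x y) * kwx x y
          + fYY (n * x + m * kwx x y) (n * y + m * kwy x y) * kwy x y) * kwy x y
      = kf x y * dMM (kH x y) (kT x y) n m := by
  have hAn : Dn (kH x y) = 0 := D_kH_const Dn x y hnx hny
  have hBn : Dn (kT x y) = 0 := D_kT_const Dn x y hnx hny
  have hAm : Dm (kH x y) = 0 := D_kH_const Dm x y hmx hmy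
  have hBm : Dm (kT x y) = 0 := D_kT_const Dm x y hmx hmy
  have hFn0 : Dn (kf x y) = 0 := D_kf_const Dn x y hnx hny
  have hFm0 : Dm (kf x y) = 0 := D_kf_const Dm x y hmx hmy
  have hw1n : Dn (kwx x y) = 0 := D_kwx_const Dn x y hnx hny
  have hw2n : Dn (kwy x y) = 0 := D_kwy_const Dn x y hnx hny
  have hw1m : Dm (kwx x y) = 0 := D_kwx_const Dm x y hmx hmy
  have hw2m : Dm (kwy x y) = 0 := D_kwy_const Dm x y hmx hmy
  have hP1n : Dn (n * x + m * kwx x y) = x := by
    simp only [map_add, Derivation.leibniz, hnx, hnn, hnm, hw1n, smul_eq_mul, mul_zero, mul_one,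
      zero_add, add_zero]
  have hP2n : Dn (n * y + m * kwy x y) = y := by
    simp only [map_add, Derivation.leibniz, hny, hnn, hnm, hw2n, smul_eq_mul, mul_zero, mul_one,
      zero_add, add_zero]
  have hP1m : Dm (n * x + m * kwx x y) = kwx x y := by
    simp only [map_add, Derivation.leibniz, hmx, hmn, hmm, hw1m, smul_eq_mul, mul_zero, mul_one,
      zero_add, add_zero]
  have hP2m : Dm (n * y + m * kwy x y) = kwy x y := by
    simp only [map_add, Derivation.leibniz, hmy, hmn, hmm, hw2m, smul_eq_mul, mul_zero, mul_one,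
      zero_add, add_zero]
  obtain ⟨hFn, hFm⟩ := first_order Dn Dm x y n m hnx hny hnn hnm hmx hmy hmn hmm
  refine ⟨?_, ?_, ?_⟩
  · have h := congrArg Dn hFn
    simp only [map_add, Derivation.leibniz, D_fX, D_fY, D_dN Dn _ _ n m hAn hBn, hP1n, hP2n,
      hnx, hny, hFn0, hnn, hnm, smul_eq_mul, mul_zero, mul_one, add_zero] at h
    linear_combination h
  · have h := congrArg Dm hFn
    simp only [map_add, Derivation.leibniz, D_fX, D_fY, D_dN Dm _ _ n m hAm hBm, hP1m, hP2m,
      hmx, hmy, hFm0, hmn, hmm, smul_eq_mul, mul_zero, mul_one, add_zero, zero_add] at h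
    linear_combination h
  · have h := congrArg Dm hFm
    simp only [map_add, Derivation.leibniz, D_fX, D_fY, D_dM Dm _ _ n m hAm hBm, hP1m, hP2m,
      hw1m, hw2m, hFm0, hmn, hmm, smul_eq_mul, mul_zero, mul_one, add_zero, zero_add] at h
    linear_combination h

variable [IsDomain S]

/-- The line identity for `H` in a domain with two derivations `∂/∂n`, `∂/∂m`. -/
theorem kH_line_of_derivations (x y n m : S)
    (hnx : Dn x = 0) (hny : Dn y = 0) (hnn : Dn n = 1) (hnm : Dn m = 0)
    (hmx : Dm x = 0) (hmy : Dm y = 0) (hmn : Dm n = 0) (hmm : Dm m = 1)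
    (h0 : (17424 : S) * kf x y ^ 2 ≠ 0) :
    kH (n * x + m * kwx x y) (n * y + m * kwy x y) = kRh (kH x y) (kT x y) n m := by
  obtain ⟨hnn', hnm', hmm'⟩ := second_order Dn Dm x y n m hnx hny hnn hnm hmx hmy hmn hmm
  have hdet := euler_det x y
  have hhess := hess_f (n * x + m * kwx x y) (n * y + m * kwy x y)
  have hR := hess_kDh (kH x y) (kT x y) n m
  generalize n * x + m * kwx x y = P1 at *
  generalize n * y + m * kwy x y = P2 at *
  generalize fXX P1 P2 = a at *
  generalize fXY P1 P2 = b at *
  generalize fYY P1 P2 = c at *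
  generalize kH P1 P2 = HP at *
  generalize kwx x y = w1 at *
  generalize kwy x y = w2 at *
  generalize kf x y = Fv at *
  generalize kRh (kH x y) (kT x y) n m = RR at *
  generalize dNN (kH x y) (kT x y) n m = d1 at *
  generalize dNM (kH x y) (kT x y) n m = d2 at *
  generalize dMM (kH x y) (kT x y) n m = d3 at *
  have key : 17424 * Fv ^ 2 * (HP - RR) = 0 := by
    linear_combination
      ((a * w1 + b * w2) * w1 + (b * w1 + c * w2) * w2) * hnn'
        + (Fv * d1) * hmm'
        - ((a * w1 + b * w2) * x + (b * w1 + c * w2) * y + Fv * d2) * hnm'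
        - ((x * w2 - y * w1) + (-12 * Fv)) * (a * c - b ^ 2) * hdet
        - (-12 * Fv) ^ 2 * hhess
        + Fv ^ 2 * hR
  rcases mul_eq_zero.mp key with h | h
  · exact absurd h h0
  · exact sub_eq_zero.mp h

/-- The line identity for `T` in a domain with two derivations `∂/∂n`, `∂/∂m`. -/
theorem kT_line_of_derivations (x y n m : S)
    (hnx : Dn x = 0) (hny : Dn y = 0) (hnn : Dn n = 1) (hnm : Dn m = 0)
    (hmx : Dm x = 0) (hmy : Dm y = 0) (hmn : Dm n = 0) (hmm : Dm m = 1)
    (h0 : (17424 : S) * kf x y ^ 2 ≠ 0) (h1 : (240 : S) * kf x y ≠ 0) :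
    kT (n * x + m * kwx x y) (n * y + m * kwy x y) = kSh (kH x y) (kT x y) n m := by
  obtain ⟨hFn, hFm⟩ := first_order Dn Dm x y n m hnx hny hnn hnm hmx hmy hmn hmm
  have hH := kH_line_of_derivations Dn Dm x y n m hnx hny hnn hnm hmx hmy hmn hmm h0
  have hAn : Dn (kH x y) = 0 := D_kH_const Dn x y hnx hny
  have hBn : Dn (kT x y) = 0 := D_kT_const Dn x y hnx hny
  have hAm : Dm (kH x y) = 0 := D_kH_const Dm x y hmx hmy
  have hBm : Dm (kT x y) = 0 := D_kT_const Dm x y hmx hmy
  have hw1n : Dn (kwx x y) = 0 := D_kwx_const Dn x y hnx hny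
  have hw2n : Dn (kwy x y) = 0 := D_kwy_const Dn x y hnx hny
  have hw1m : Dm (kwx x y) = 0 := D_kwx_const Dm x y hmx hmy
  have hw2m : Dm (kwy x y) = 0 := D_kwy_const Dm x y hmx hmy
  have hP1n : Dn (n * x + m * kwx x y) = x := by
    simp only [map_add, Derivation.leibniz, hnx, hnn, hnm, hw1n, smul_eq_mul, mul_zero, mul_one,
      zero_add, add_zero]
  have hP2n : Dn (n * y + m * kwy x y) = y := by
    simp only [map_add, Derivation.leibniz, hny, hnn, hnm, hw2n, smul_eq_mul, mul_zero, mul_one,
      zero_add, add_zero]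
  have hP1m : Dm (n * x + m * kwx x y) = kwx x y := by
    simp only [map_add, Derivation.leibniz, hmx, hmn, hmm, hw1m, smul_eq_mul, mul_zero, mul_one,
      zero_add, add_zero]
  have hP2m : Dm (n * y + m * kwy x y) = kwy x y := by
    simp only [map_add, Derivation.leibniz, hmy, hmn, hmm, hw2m, smul_eq_mul, mul_zero, mul_one,
      zero_add, add_zero]
  have hHn : hX (n * x + m * kwx x y) (n * y + m * kwy x y) * x
      + hY (n * x + m * kwx x y) (n * y + m * kwy x y) * y = rN (kH x y) (kT x y) n m := by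
    have h := congrArg Dn hH
    rw [D_kH, D_kRh Dn _ _ n m hAn hBn, hP1n, hP2n, hnn, hnm] at h
    linear_combination h
  have hHm : hX (n * x + m * kwx x y) (n * y + m * kwy x y) * kwx x y
      + hY (n * x + m * kwx x y) (n * y + m * kwy x y) * kwy x y = rM (kH x y) (kT x y) n m := by
    have h := congrArg Dm hH
    rw [D_kH, D_kRh Dm _ _ n m hAm hBm, hP1m, hP2m, hmn, hmm] at h
    linear_combination h
  have hdet := euler_det x y
  have hjac := jac_f_H (n * x + m * kwx x y) (n * y + m * kwy x y)
  have hJ := jac_kDh_kRh (kH x y) (kT x y) n m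
  clear hH hP1n hP2n hP1m hP2m
  generalize n * x + m * kwx x y = P1 at *
  generalize n * y + m * kwy x y = P2 at *
  generalize fX P1 P2 = p at *
  generalize fY P1 P2 = q at *
  generalize hX P1 P2 = r at *
  generalize hY P1 P2 = s at *
  generalize kT P1 P2 = TP at *
  generalize kwx x y = w1 at *
  generalize kwy x y = w2 at *
  generalize kf x y = Fv at *
  generalize kSh (kH x y) (kT x y) n m = SS at *
  generalize dN (kH x y) (kT x y) n m = d1 at *
  generalize dM (kH x y) (kT x y) n m = d2 at *
  generalize rN (kH x y) (kT x y) n m = r1 at *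
  generalize rM (kH x y) (kT x y) n m = r2 at *
  have key : 240 * Fv * (TP - SS) = 0 := by
    linear_combination
      (-(r * w1 + s * w2)) * hFn + (r * x + s * y) * hFm - (Fv * d1) * hHm + (Fv * d2) * hHn
        + (p * s - q * r) * hdet + (-12 * Fv) * hjac - Fv * hJ
  rcases mul_eq_zero.mp key with h | h
  · exact absurd h h1
  · exact sub_eq_zero.mp h

end Abstract

end Fermat.Agent.S52.H93.Lite
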